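import Mathlib

set_option autoImplicit false

namespace Fermat.Agent.S57

open IsLocalRing

/-- A module over an algebra `P` over a local ring `𝒪` which is spanned over `𝒪` by finitely many
elements and killed by the maximal ideal of `𝒪` has finite length over `P`. -/
theorem isFiniteLength_of_span {𝒪 P Q : Type*} [CommRing 𝒪] [IsLocalRing 𝒪] [CommRing P]
    [Algebra 𝒪 P] [AddCommGroup Q] [Module P Q] {d : ℕ} (v : Fin d → Q)
    (hspan : ∀ x : Q, ∃ a : Fin d → 𝒪, x = ∑ i, algebraMap 𝒪 P (a i) • v i)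
    (hkill : ∀ a ∈ maximalIdeal 𝒪, ∀ x : Q, algebraMap 𝒪 P a • x = 0) :
    IsFiniteLength P Q := by
  let _ : Module 𝒪 Q := Module.compHom Q (algebraMap 𝒪 P)
  have hsmul : ∀ (a : 𝒪) (x : Q), a • x = algebraMap 𝒪 P a • x := fun _ _ => rfl
  have : IsScalarTower 𝒪 P Q := ⟨fun a f x => by
    rw [hsmul, Algebra.smul_def, mul_smul]⟩
  have : IsSimpleModule 𝒪 (𝒪 ⧸ maximalIdeal 𝒪) := by
    rw [isSimpleModule_iff_quot_maximal]
    exact ⟨_, inferInstance, ⟨LinearEquiv.refl _ _⟩⟩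
  have hA : IsArtinian 𝒪 (Fin d → 𝒪 ⧸ maximalIdeal 𝒪) := inferInstance
  have hN : IsNoetherian 𝒪 (Fin d → 𝒪 ⧸ maximalIdeal 𝒪) := inferInstance
  let g : Fin d → ((𝒪 ⧸ maximalIdeal 𝒪) →ₗ[𝒪] Q) := fun i =>
    Submodule.liftQ (maximalIdeal 𝒪) (LinearMap.toSpanSingleton 𝒪 Q (v i)) (by
      intro a ha
      rw [LinearMap.mem_ker, LinearMap.toSpanSingleton_apply, hsmul]
      exact hkill a ha _)
  let G : (Fin d → 𝒪 ⧸ maximalIdeal 𝒪) →ₗ[𝒪] Q := ∑ i, (g i).comp (LinearMap.proj i)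
  have hG : Function.Surjective G := by
    intro x
    obtain ⟨a, ha⟩ := hspan x
    refine ⟨fun i => Ideal.Quotient.mk _ (a i), ?_⟩
    rw [ha]
    simp only [G, LinearMap.sum_apply, LinearMap.comp_apply, LinearMap.proj_apply]
    refine Finset.sum_congr rfl fun i _ => ?_
    show Submodule.liftQ _ _ _ (Submodule.Quotient.mk (a i)) = _
    rw [Submodule.liftQ_apply, LinearMap.toSpanSingleton_apply, hsmul]
  have hA' : IsArtinian 𝒪 Q := isArtinian_of_surjective _ G hG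
  have hN' : IsNoetherian 𝒪 Q := isNoetherian_of_surjective G (LinearMap.range_eq_top.mpr hG)
  rw [isFiniteLength_iff_isNoetherian_isArtinian]
  exact ⟨isNoetherian_of_tower 𝒪 hN', isArtinian_of_tower 𝒪 hA'⟩

end Fermat.Agent.S57
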