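import Mathlib

set_option autoImplicit false

namespace Fermat.Agent.S57

open MvPowerSeries RingTheory.Sequence

variable (𝒪 : Type) [CommRing 𝒪] (r : ℕ)

/-- the `j`-th variable, or `0` when out of range -/
noncomputable def Xn (j : ℕ) : MvPowerSeries (Fin r) 𝒪 :=
  if h : j < r then X ⟨j, h⟩ else 0

/-- the list of the first `i` variables -/
noncomputable def xsUpTo (i : ℕ) : List (MvPowerSeries (Fin r) 𝒪) :=
  (List.range i).map (Xn 𝒪 r)

/-- ideal of power series all of whose monomials involve a variable of index `< i` -/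
def Iup (i : ℕ) : Ideal (MvPowerSeries (Fin r) 𝒪) where
  carrier := {f | ∀ m : Fin r →₀ ℕ, (∀ j : Fin r, j.val < i → m j = 0) → coeff m f = 0}
  add_mem' := by
    intro f g hf hg m hm
    rw [map_add, hf m hm, hg m hm, add_zero]
  zero_mem' := by
    intro m _
    simp
  smul_mem' := by
    classical
    intro c f hf m hm
    rw [smul_eq_mul, coeff_mul]
    refine Finset.sum_eq_zero ?_
    rintro ⟨a, b⟩ hab
    rw [Finset.HasAntidiagonal.mem_antidiagonal] at hab
    have hb : ∀ j : Fin r, j.val < i → b j = 0 := by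
      intro j hj
      have h1 := hm j hj
      rw [← hab] at h1
      simp only [Finsupp.coe_add, Pi.add_apply, Nat.add_eq_zero_iff] at h1
      exact h1.2
    simp only
    rw [hf b hb, mul_zero]

variable {𝒪 r}

theorem mem_Iup {i : ℕ} {f : MvPowerSeries (Fin r) 𝒪} :
    f ∈ Iup 𝒪 r i ↔ ∀ m : Fin r →₀ ℕ, (∀ j : Fin r, j.val < i → m j = 0) → coeff m f = 0 :=
  Iff.rfl

theorem Iup_zero : Iup 𝒪 r 0 = ⊥ := by
  rw [eq_bot_iff]
  intro f hf
  rw [Submodule.mem_bot]
  ext m
  simpa using hf m (by simp)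

theorem Iup_succ {i : ℕ} (hi : i < r) :
    Iup 𝒪 r (i + 1) = Iup 𝒪 r i ⊔ Ideal.span {X ⟨i, hi⟩} := by
  classical
  apply le_antisymm
  · intro f hf
    let f₁ : MvPowerSeries (Fin r) 𝒪 := fun m => if m ⟨i, hi⟩ = 0 then 0 else coeff m f
    let f₂ : MvPowerSeries (Fin r) 𝒪 := fun m => if m ⟨i, hi⟩ = 0 then coeff m f else 0
    have hsum : f = f₂ + f₁ := by
      ext m
      rw [map_add]
      show coeff m f = f₂ m + f₁ m
      by_cases h : m ⟨i, hi⟩ = 0 <;> simp [f₁, f₂, h]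
    rw [hsum]
    refine Submodule.add_mem_sup ?_ ?_
    · intro m hm
      show f₂ m = 0
      by_cases h : m ⟨i, hi⟩ = 0
      · simp only [f₂, h, if_true]
        apply hf m
        intro j hj
        rcases Nat.lt_succ_iff_lt_or_eq.mp hj with h' | h'
        · exact hm j h'
        · have : j = ⟨i, hi⟩ := Fin.ext h'
          rw [this]; exact h
      · simp [f₂, h]
    · rw [Ideal.mem_span_singleton, X_dvd_iff]
      intro m hm
      show f₁ m = 0
      simp [f₁, hm]
  · refine sup_le ?_ ?_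
    · intro f hf m hm
      exact hf m (fun j hj => hm j (Nat.lt_succ_of_lt hj))
    · rw [Ideal.span_singleton_le_iff_mem]
      intro m hm
      rw [coeff_X, if_neg]
      intro h
      have := hm ⟨i, hi⟩ (Nat.lt_succ_self i)
      rw [h] at this
      simp at this

theorem xsUpTo_succ (i : ℕ) : xsUpTo 𝒪 r (i + 1) = xsUpTo 𝒪 r i ++ [Xn 𝒪 r i] := by
  simp [xsUpTo, List.range_succ]

theorem ofList_xsUpTo {i : ℕ} (hi : i ≤ r) : Ideal.ofList (xsUpTo 𝒪 r i) = Iup 𝒪 r i := by
  induction i with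
  | zero => simp [xsUpTo, Iup_zero]
  | succ i ih =>
    have hi' : i < r := hi
    rw [xsUpTo_succ, Ideal.ofList_append, ih hi'.le, Ideal.ofList_singleton, Iup_succ hi', Xn,
      dif_pos hi']

theorem isSMulRegular_quot_Iup {i : ℕ} (hi : i < r) :
    IsSMulRegular (MvPowerSeries (Fin r) 𝒪 ⧸
      (Iup 𝒪 r i • ⊤ : Submodule (MvPowerSeries (Fin r) 𝒪) (MvPowerSeries (Fin r) 𝒪)))
      (X ⟨i, hi⟩ : MvPowerSeries (Fin r) 𝒪) := by
  classical
  rw [isSMulRegular_quotient_iff_mem_of_smul_mem]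
  intro f hf
  rw [smul_eq_mul, Ideal.mul_top] at hf ⊢
  intro m hm
  have h1 := hf (m + Finsupp.single ⟨i, hi⟩ 1) (by
    intro j hj
    have hne : (⟨i, hi⟩ : Fin r) ≠ j := by
      intro h
      rw [← h] at hj
      exact lt_irrefl _ hj
    simp [hm j hj, hne])
  rw [smul_eq_mul, mul_comm, X_def, coeff_add_mul_monomial, mul_one] at h1
  exact h1

theorem isWeaklyRegular_xsUpTo {i : ℕ} (hi : i ≤ r) :
    IsWeaklyRegular (MvPowerSeries (Fin r) 𝒪) (xsUpTo 𝒪 r i) := by
  induction i with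
  | zero => simp [xsUpTo]
  | succ i ih =>
    have hi' : i < r := hi
    rw [xsUpTo_succ, isWeaklyRegular_append_iff, isWeaklyRegular_singleton_iff,
      ofList_xsUpTo hi'.le, Xn, dif_pos hi']
    exact ⟨ih hi'.le, isSMulRegular_quot_Iup hi'⟩

theorem mem_Iup_self {f : MvPowerSeries (Fin r) 𝒪} :
    f ∈ Iup 𝒪 r r ↔ constantCoeff f = 0 := by
  rw [mem_Iup]
  constructor
  · intro h
    exact h 0 (by simp)
  · intro h m hm
    have : m = 0 := by
      ext j
      exact hm j j.2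
    rw [this]
    exact h

variable (r) in
/-- the full sequence: all the variables, then the uniformiser. -/
noncomputable def xsFull (ϖ : 𝒪) : List (MvPowerSeries (Fin r) 𝒪) :=
  xsUpTo 𝒪 r r ++ [C ϖ]

theorem length_xsFull (ϖ : 𝒪) : (xsFull r ϖ).length = r + 1 := by
  simp [xsFull, xsUpTo]

theorem isWeaklyRegular_xsFull {ϖ : 𝒪} (hϖ : ∀ a : 𝒪, ϖ * a = 0 → a = 0) :
    IsWeaklyRegular (MvPowerSeries (Fin r) 𝒪) (xsFull r ϖ) := by
  rw [xsFull, isWeaklyRegular_append_iff, isWeaklyRegular_singleton_iff, ofList_xsUpTo le_rfl]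
  refine ⟨isWeaklyRegular_xsUpTo le_rfl, ?_⟩
  rw [isSMulRegular_quotient_iff_mem_of_smul_mem]
  intro f hf
  rw [smul_eq_mul, Ideal.mul_top] at hf ⊢
  rw [mem_Iup_self] at hf ⊢
  rw [smul_eq_mul, map_mul, constantCoeff_C] at hf
  exact hϖ _ hf

theorem ofList_xsFull [IsLocalRing 𝒪] {ϖ : 𝒪} (hϖ : IsLocalRing.maximalIdeal 𝒪 = Ideal.span {ϖ}) :
    Ideal.ofList (xsFull r ϖ) = IsLocalRing.maximalIdeal (MvPowerSeries (Fin r) 𝒪) := by
  rw [xsFull, Ideal.ofList_append, ofList_xsUpTo le_rfl, Ideal.ofList_singleton]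
  have hmem : ∀ f : MvPowerSeries (Fin r) 𝒪,
      f ∈ IsLocalRing.maximalIdeal (MvPowerSeries (Fin r) 𝒪) ↔
        constantCoeff f ∈ IsLocalRing.maximalIdeal 𝒪 := by
    intro f
    rw [IsLocalRing.mem_maximalIdeal, IsLocalRing.mem_maximalIdeal, mem_nonunits_iff,
      mem_nonunits_iff, isUnit_iff_constantCoeff]
  apply le_antisymm
  · refine sup_le ?_ ?_
    · intro f hf
      rw [mem_Iup_self] at hf
      rw [hmem, hf]
      exact zero_mem _
    · rw [Ideal.span_singleton_le_iff_mem, hmem, constantCoeff_C, hϖ]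
      exact Ideal.mem_span_singleton_self ϖ
  · intro f hf
    rw [hmem, hϖ, Ideal.mem_span_singleton] at hf
    obtain ⟨a, ha⟩ := hf
    have : f = (f - C (constantCoeff f)) + C ϖ * C a := by
      rw [← map_mul, ← ha]; ring
    rw [this]
    refine Submodule.add_mem_sup ?_ ?_
    · rw [mem_Iup_self]
      simp
    · exact Ideal.mul_mem_right _ _ (Ideal.mem_span_singleton_self _)

end Fermat.Agent.S57
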