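import Mathlib

set_option autoImplicit false

namespace Fermat.Agent.S57

open RingTheory.Sequence IsLocalRing CategoryTheory Abelian Module

universe u

variable {P : Type u} [CommRing P] [IsLocalRing P] [IsNoetherianRing P]

omit [IsNoetherianRing P] in
/-- finite length modules have projective dimension bounded by that of the residue field. -/
theorem hasProjDimLT_of_isFiniteLength (n : ℕ)
    (hk : HasProjectiveDimensionLT (ModuleCat.of P (P ⧸ maximalIdeal P)) n)
    (L : Type u) [AddCommGroup L] [Module P L] (hL : IsFiniteLength P L) :
    HasProjectiveDimensionLT (ModuleCat.of P L) n := by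
  induction hL with
  | @of_subsingleton M _ _ _ =>
    have hz : Limits.IsZero (ModuleCat.of P M) := ModuleCat.isZero_of_subsingleton _
    have := hz.hasProjectiveDimensionLT_zero
    exact hasProjectiveDimensionLT_of_ge _ 0 n (Nat.zero_le _)
  | @of_simple_quotient M _ _ N hs _ ih =>
    obtain ⟨I, hI, ⟨e⟩⟩ := isSimpleModule_iff_quot_maximal.mp hs
    have hI' : I = maximalIdeal P := IsLocalRing.eq_maximalIdeal hI
    subst hI'
    have h3 : HasProjectiveDimensionLT (ModuleCat.of P (M ⧸ N)) n :=
      hasProjectiveDimensionLT_of_iso e.symm.toModuleIso n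
    let S : ShortComplex (ModuleCat.{u} P) :=
      ModuleCat.shortComplexOfCompEqZero N.subtype N.mkQ (by ext x; simp)
    have hS : S.ShortExact := by
      refine ModuleCat.shortComplex_shortExact S ?_ N.injective_subtype N.mkQ_surjective
      intro x
      simp [S]
    exact hS.hasProjectiveDimensionLT_X₂ n ih h3

/-- Special case of Auslander–Buchsbaum: over a Noetherian local ring whose maximal ideal is
generated by a regular sequence of length `n`, a finite module admitting a weakly regular sequence
of length `n` in the maximal ideal with finite length quotient is free. -/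
theorem free_of_regular_sequences (xs : List P) (hxs : IsRegular P xs)
    (hxm : Ideal.ofList xs = maximalIdeal P)
    (N : Type u) [AddCommGroup N] [Module P N] [Module.Finite P N] [Nontrivial N]
    (ys : List P) (hlen : ys.length = xs.length) (hys : IsWeaklyRegular N ys)
    (hmem : ∀ y ∈ ys, y ∈ maximalIdeal P)
    (hfl : IsFiniteLength P (N ⧸ Ideal.ofList ys • (⊤ : Submodule P N))) :
    Module.Free P N := by
  have h1 := ModuleCat.projectiveDimension_quotient_eq_length (R := P) xs hxs
  have hk : HasProjectiveDimensionLT (ModuleCat.of P (P ⧸ maximalIdeal P)) (xs.length + 1) := by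
    have h2 : projectiveDimension (ModuleCat.of P (Shrink.{u} (P ⧸ Ideal.ofList xs))) ≤ xs.length :=
      h1.le
    rw [projectiveDimension_le_iff] at h2
    rw [← hxm]
    exact hasProjectiveDimensionLT_of_iso (Shrink.linearEquiv P (P ⧸ Ideal.ofList xs)).toModuleIso _
  have h3 := hasProjDimLT_of_isFiniteLength (xs.length + 1) hk _ hfl
  have h4 := ModuleCat.projectiveDimension_quotient_eq_add_length_of_isWeaklyRegular
    (ModuleCat.of P N) ys hys hmem
  have h5 : projectiveDimension (ModuleCat.of P (N ⧸ Ideal.ofList ys • (⊤ : Submodule P N))) ≤
      xs.length := by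
    rw [projectiveDimension_le_iff]
    exact h3
  have h6 : projectiveDimension (ModuleCat.of P N) + (ys.length : ℕ) ≤ (0 : ℕ) + (ys.length : ℕ) := by
    rw [hlen] at h4 ⊢
    simpa using h4 ▸ h5
  rw [ENat.WithBot.add_le_add_natCast_right_iff, projectiveDimension_le_iff] at h6
  have h7 : Projective (ModuleCat.of P N) := (projective_iff_hasProjectiveDimensionLE_zero _).mpr h6
  have h8 : Module.Projective P N := (IsProjective.iff_projective N).mpr h7
  exact Module.free_of_flat_of_isLocalRing

end Fermat.Agent.S57
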